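import Mathlib.RingTheory.MvPowerSeries.Basic
import Mathlib.RingTheory.LocalRing.MaximalIdeal.Basic
import Mathlib.LinearAlgebra.Matrix.Determinant.Basic
import Mathlib.LinearAlgebra.Matrix.Trace
import Mathlib.Algebra.Ring.Int.Units

/-!
# The ring of local coordinates and the equations of its types
-/

noncomputable section

namespace Fermat.Agent.Engine

open IsLocalRing

variable (O : Type) [CommRing O] (T : Type) (g : ℕ)

/-- Indices: entries of `Φ`, entries of `σ`, global variables. -/
abbrev LocVar : Type := (T × Fin 2 × Fin 2) ⊕ (T × Fin 2 × Fin 2) ⊕ Fin g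

/-- The coordinate ring. -/
abbrev LocRing : Type := MvPowerSeries (LocVar T g) O

variable {O T g}

/-- Frobenius at `r`, around `Φ₀ r`. -/
def locFrob (Φ₀ : T → Matrix (Fin 2) (Fin 2) O) (r : T) : Matrix (Fin 2) (Fin 2) (LocRing O T g) :=
  Matrix.of fun i j => MvPowerSeries.C (Φ₀ r i j) + MvPowerSeries.X (Sum.inl (r, i, j))

/-- `σ - 1` at `r`. -/
def locMono (r : T) : Matrix (Fin 2) (Fin 2) (LocRing O T g) :=
  Matrix.of fun i j => MvPowerSeries.X (Sum.inr (Sum.inl (r, i, j)))

/-- The types of components. -/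
inductive CompType : Type
  | unramified
  | steinberg (γ : ℤˣ)

/-- The sign, as an element of a ring. -/
def signCast {R : Type} [Ring R] (γ : ℤˣ) : R := ((γ : ℤ) : R)

/-- The equations of a type at one prime, of norm `q`. -/
def typeRels (q : ℕ) (Φ N : Matrix (Fin 2) (Fin 2) (LocRing O T g)) :
    CompType → Set (LocRing O T g)
  | .unramified => {Φ.det - (q : LocRing O T g)} ∪ Set.range fun x : Fin 2 × Fin 2 => N x.1 x.2
  | .steinberg γ =>
      {Φ.det - (q : LocRing O T g), Φ.trace - signCast γ * ((q : LocRing O T g) + 1), N.trace,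
        N.det} ∪
      Set.range (fun x : Fin 2 × Fin 2 => (N * Φ - (signCast γ : LocRing O T g) • N) x.1 x.2) ∪
      Set.range (fun x : Fin 2 × Fin 2 =>
        (Φ * N - (signCast γ * (q : LocRing O T g)) • N) x.1 x.2)

/-- The ideal of a type. -/
def typeIdeal (qv : T → ℕ) (Φ₀ : T → Matrix (Fin 2) (Fin 2) O) (τ : T → CompType) :
    Ideal (LocRing O T g) :=
  Ideal.span (⋃ r, typeRels (qv r) (locFrob Φ₀ r) (locMono r) (τ r))

/-- The residual data is compatible with the type. -/
def Compatible [IsLocalRing O] (q : ℕ) (Φ₀ : Matrix (Fin 2) (Fin 2) O) : CompType → Prop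
  | .unramified => IsUnit (q : O) ∧ Φ₀.det - (q : O) ∈ maximalIdeal O
  | .steinberg γ => IsUnit (q : O) ∧ Φ₀.det - (q : O) ∈ maximalIdeal O ∧
      Φ₀.trace - signCast γ * ((q : O) + 1) ∈ maximalIdeal O

end Fermat.Agent.Engine
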