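import Mathlib

/-!
# Congruence of monomials under the quadratic binomial relations of the cone

`f c a` (`c` a colour, `a ≤ 2` a weight) satisfy `f c a * f d b = f c a' * f d b'` whenever
`a + b = a' + b'`.  Then a product depends only on the colours and on the total weight.
-/

namespace Fermat.Agent.Engine.LocalType

variable {B : Type*} [CommMonoid B]

/-- The greedy product of given colours and total weight. -/
def greedy (f : Bool → ℕ → B) : List Bool → ℕ → B
  | [], _ => 1
  | c :: cs, l => f c (min 2 l) * greedy f cs (l - 2)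

variable {f : Bool → ℕ → B}

/-- One factor times a greedy product is greedy. -/
theorem mul_greedy (hf : ∀ c d a b a' b', a ≤ 2 → b ≤ 2 → a' ≤ 2 → b' ≤ 2 → a + b = a' + b' →
    f c a * f d b = f c a' * f d b') :
    ∀ (cs : List Bool) (c : Bool) (a l : ℕ), a ≤ 2 → l ≤ 2 * cs.length →
      f c a * greedy f cs l = greedy f (c :: cs) (a + l) := by
  intro cs
  induction cs with
  | nil =>
    intro c a l ha hl
    simp only [List.length_nil, mul_zero] at hl
    simp [greedy, Nat.le_zero.1 hl, min_eq_right ha]
  | cons d cs ih =>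
    intro c a l ha hl
    simp only [List.length_cons] at hl
    have h := hf c d a (min 2 l) (min 2 (a + l)) (a + min 2 l - min 2 (a + l)) ha (min_le_left _ _)
      (min_le_left _ _) (by omega) (by omega)
    rw [greedy, ← mul_assoc, h, mul_assoc, ih d _ (l - 2) (by omega) (by omega)]
    conv_rhs => rw [greedy]
    rw [show a + min 2 l - min 2 (a + l) + (l - 2) = a + l - 2 by omega]

/-- Every product is the greedy one of its colours and weight. -/
theorem prod_eq_greedy (hf : ∀ c d a b a' b', a ≤ 2 → b ≤ 2 → a' ≤ 2 → b' ≤ 2 →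
    a + b = a' + b' → f c a * f d b = f c a' * f d b') :
    ∀ L : List (Bool × ℕ), (∀ x ∈ L, x.2 ≤ 2) →
      (L.map fun x => f x.1 x.2).prod = greedy f (L.map Prod.fst) (L.map Prod.snd).sum ∧
        (L.map Prod.snd).sum ≤ 2 * L.length := by
  intro L
  induction L with
  | nil => simp [greedy]
  | cons x L ih =>
    intro h
    obtain ⟨h1, h2⟩ := ih fun y hy => h y (List.mem_cons_of_mem _ hy)
    have hx := h x (List.mem_cons_self ..)
    refine ⟨?_, ?_⟩
    · simp only [List.map_cons, List.prod_cons, List.sum_cons]
      rw [h1, mul_greedy hf _ _ _ _ hx (by simpa using h2)]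
    · simp only [List.map_cons, List.sum_cons, List.length_cons]
      omega

/-- The list of factors of a monomial. -/
def factors (c : Bool) (e : Fin 3 → ℕ) : List (Bool × ℕ) :=
  List.replicate (e 0) (c, 0) ++ List.replicate (e 1) (c, 1) ++ List.replicate (e 2) (c, 2)

/-- **Congruence of monomials.** -/
theorem monomial_congr (hf : ∀ c d a b a' b', a ≤ 2 → b ≤ 2 → a' ≤ 2 → b' ≤ 2 →
    a + b = a' + b' → f c a * f d b = f c a' * f d b') (e e' : Bool → Fin 3 → ℕ)
    (hdeg : ∀ c, e c 0 + e c 1 + e c 2 = e' c 0 + e' c 1 + e' c 2)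
    (hwt : e true 1 + 2 * e true 2 + (e false 1 + 2 * e false 2) =
      e' true 1 + 2 * e' true 2 + (e' false 1 + 2 * e' false 2)) :
    (∏ c : Bool, ∏ k : Fin 3, f c k ^ e c k) = ∏ c : Bool, ∏ k : Fin 3, f c k ^ e' c k := by
  have key : ∀ e : Bool → Fin 3 → ℕ, (∏ c : Bool, ∏ k : Fin 3, f c k ^ e c k) =
      greedy f (List.replicate (e true 0 + e true 1 + e true 2) true ++
        List.replicate (e false 0 + e false 1 + e false 2) false)
        (e true 1 + 2 * e true 2 + (e false 1 + 2 * e false 2)) := by
    intro e
    have h := (prod_eq_greedy hf (factors true (e true) ++ factors false (e false)) (by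
      intro x hx
      simp only [factors, List.mem_append, List.mem_replicate] at hx
      rcases hx with ((⟨-, rfl⟩ | ⟨-, rfl⟩) | ⟨-, rfl⟩) | (⟨-, rfl⟩ | ⟨-, rfl⟩) | ⟨-, rfl⟩ <;>
        simp)).1
    have h1 : ((factors true (e true) ++ factors false (e false)).map fun x => f x.1 x.2).prod =
        ∏ c : Bool, ∏ k : Fin 3, f c k ^ e c k := by
      simp [factors, Fin.prod_univ_three, List.map_replicate, List.prod_replicate, mul_assoc]
    rw [← h1, h]
    congr 1
    · simp only [factors, List.map_append, List.map_replicate,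
        List.replicate_append_replicate]
    · simp [factors]
      ring
  rw [key, key, hdeg true, hdeg false, hwt]

end Fermat.Agent.Engine.LocalType
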