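import Fermat.Agent.DefRing.PowerSeriesLocal

/-!
# The kernel of a map to power series sending generators to monomials

If `ψ : R → k[[τ]]` kills `I`, sends the generators `w` of the maximal ideal of `R` modulo `I` to
monomials, and monomials in `w` with equal image are congruent modulo `I`, then `ker ψ ≤ I`.
No normal forms are needed: one groups a polynomial approximation by the exponent of the image.
-/

noncomputable section

namespace Fermat.Agent.Engine.LocalType

open IsLocalRing MvPowerSeries

variable {O R k τ σ : Type*} [CommRing O] [CommRing R] [Algebra O R] [CommRing k]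

/-- The exponent of the image of a monomial. -/
def imgExp (L : σ → τ →₀ ℕ) (e : σ →₀ ℕ) : τ →₀ ℕ := e.sum fun i n => n • L i

/-- The degree of an image exponent. -/
theorem degree_imgExp_le {L : σ → τ →₀ ℕ} {B : ℕ} (hB : ∀ i, (L i).degree ≤ B) (e : σ →₀ ℕ) :
    (imgExp L e).degree ≤ B * e.degree := by
  unfold imgExp Finsupp.sum
  rw [map_sum, show e.degree = ∑ i ∈ e.support, e i from rfl, Finset.mul_sum]
  refine Finset.sum_le_sum fun i _ => ?_
  rw [map_nsmul, smul_eq_mul, mul_comm B]
  exact Nat.mul_le_mul_left _ (hB i)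

/-- Products of monomials. -/
theorem prod_monomial_pow (L : σ → τ →₀ ℕ) (e : σ →₀ ℕ) :
    (e.prod fun i n => (monomial (L i) (1 : k) : MvPowerSeries τ k) ^ n) =
      monomial (imgExp L e) 1 := by
  classical
  induction e using Finsupp.induction with
  | zero => simp [imgExp, MvPowerSeries.monomial_zero_one]
  | single_add i n f hi _ ih =>
    have h : imgExp L (Finsupp.single i n + f) = n • L i + imgExp L f := by
      unfold imgExp
      rw [Finsupp.sum_add_index' (h := fun i n => n • L i) (fun i => zero_nsmul (L i))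
          (fun i m m' => add_nsmul (L i) m m'),
        Finsupp.sum_single_index (h := fun i n => n • L i) (zero_nsmul (L i))]
    rw [Finsupp.prod_add_index' (h := fun i n => (monomial (L i) (1 : k) : MvPowerSeries τ k) ^ n)
        (fun _ => pow_zero _) (fun _ _ _ => pow_add _ _ _),
      Finsupp.prod_single_index (h := fun i n => (monomial (L i) (1 : k) : MvPowerSeries τ k) ^ n)
        (pow_zero _), ih, h]
    have hp : ∀ m : ℕ, (monomial (L i) (1 : k) : MvPowerSeries τ k) ^ m =
        monomial (m • L i) 1 := by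
      intro m
      induction m with
      | zero => simp [MvPowerSeries.monomial_zero_one]
      | succ m ihm => rw [pow_succ, ihm, monomial_mul_monomial, one_mul, add_nsmul, one_nsmul]
    rw [hp, monomial_mul_monomial, one_mul]

variable [IsLocalRing R]

/-- Every element is a polynomial in generators modulo `I` and any power of the maximal ideal. -/
theorem exists_poly_approx {I : Ideal R} {w : σ → R} (hw : ∀ i, w i ∈ maximalIdeal R)
    (hgen : maximalIdeal R ≤ I ⊔ Ideal.span (Set.range w))
    (hres : ∀ x : R, ∃ o : O, x - algebraMap O R o ∈ maximalIdeal R) :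
    ∀ (n : ℕ) (x : R), ∃ p : MvPolynomial σ O,
      x - MvPolynomial.aeval w p ∈ I ⊔ maximalIdeal R ^ n := by
  intro n
  induction n with
  | zero => exact fun x => ⟨0, by simp⟩
  | succ n ih =>
    intro x
    obtain ⟨o, ho⟩ := hres x
    suffices h : ∀ y ∈ I ⊔ Ideal.span (Set.range w), ∃ p : MvPolynomial σ O,
        y - MvPolynomial.aeval w p ∈ I ⊔ maximalIdeal R ^ (n + 1) by
      obtain ⟨p, hp⟩ := h _ (hgen ho)
      refine ⟨p + MvPolynomial.C o, ?_⟩
      rw [map_add, MvPolynomial.aeval_C]
      convert hp using 1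
      ring
    intro y hy
    obtain ⟨a, ha, b, hb, rfl⟩ := Submodule.mem_sup.1 hy
    suffices h : ∃ p : MvPolynomial σ O,
        b - MvPolynomial.aeval w p ∈ I ⊔ maximalIdeal R ^ (n + 1) by
      obtain ⟨p, hp⟩ := h
      refine ⟨p, ?_⟩
      rw [add_sub_assoc]
      exact add_mem (Ideal.mem_sup_left ha) hp
    clear ho hy
    induction hb using Submodule.span_induction with
    | mem z hz =>
      obtain ⟨i, rfl⟩ := hz
      exact ⟨MvPolynomial.X i, by simp⟩
    | zero => exact ⟨0, by simp⟩
    | add u v _ _ hu hv =>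
      obtain ⟨pu, hpu⟩ := hu
      obtain ⟨pv, hpv⟩ := hv
      refine ⟨pu + pv, ?_⟩
      rw [map_add, show u + v - (MvPolynomial.aeval w pu + MvPolynomial.aeval w pv) =
        (u - MvPolynomial.aeval w pu) + (v - MvPolynomial.aeval w pv) by ring]
      exact add_mem hpu hpv
    | smul c u hu' hu =>
      obtain ⟨pu, hpu⟩ := hu
      obtain ⟨pc, hpc⟩ := ih c
      refine ⟨pc * pu, ?_⟩
      rw [map_mul, smul_eq_mul, show c * u - MvPolynomial.aeval w pc * MvPolynomial.aeval w pu =
        (c - MvPolynomial.aeval w pc) * u +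
          MvPolynomial.aeval w pc * (u - MvPolynomial.aeval w pu) by ring]
      refine add_mem ?_ (Ideal.mul_mem_left _ _ hpu)
      obtain ⟨i₀, hi₀, m₀, hm₀, he⟩ := Submodule.mem_sup.1 hpc
      rw [← he, add_mul]
      refine add_mem (Ideal.mem_sup_left (Ideal.mul_mem_right _ _ hi₀)) (Ideal.mem_sup_right ?_)
      rw [pow_succ]
      exact Ideal.mul_mem_mul hm₀ ((Ideal.span_le.2 (Set.range_subset_iff.2 hw)) hu')

/-- Monomials of high degree in the generators lie in a high power of the maximal ideal. -/
theorem prod_pow_mem {w : σ → R} (hw : ∀ i, w i ∈ maximalIdeal R) (e : σ →₀ ℕ) :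
    (e.prod fun i n => w i ^ n) ∈ maximalIdeal R ^ e.degree := by
  rw [Finsupp.prod, show e.degree = ∑ i ∈ e.support, e i from rfl, ← Finset.prod_pow_eq_pow_sum]
  exact Ideal.prod_mem_prod fun i _ => Ideal.pow_mem_pow (hw i) _

variable [IsNoetherianRing R] [IsLocalRing k]

/-- **The monomial kernel criterion.** -/
theorem mem_of_map_eq_zero (hk : maximalIdeal k = ⊥) (ψ : R →+* MvPowerSeries τ k)
    (hψm : ∀ x ∈ maximalIdeal R, ψ x ∈ maximalIdeal (MvPowerSeries τ k))
    (χ : O →+* k) (hψC : ∀ o, ψ (algebraMap O R o) = C (χ o))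
    {I : Ideal R} (hχ : ∀ o, χ o = 0 → algebraMap O R o ∈ I) (hψI : ∀ x ∈ I, ψ x = 0)
    {w : σ → R} (hw : ∀ i, w i ∈ maximalIdeal R)
    (hgen : maximalIdeal R ≤ I ⊔ Ideal.span (Set.range w))
    (hres : ∀ x : R, ∃ o : O, x - algebraMap O R o ∈ maximalIdeal R)
    (L : σ → τ →₀ ℕ) {B : ℕ} (hB : ∀ i, (L i).degree ≤ B)
    (hval : ∀ i, ψ (w i) = monomial (L i) 1)
    (hbin : ∀ e e' : σ →₀ ℕ, imgExp L e = imgExp L e' →
      (e.prod fun i n => w i ^ n) - (e'.prod fun i n => w i ^ n) ∈ I)
    {x : R} (hx : ψ x = 0) : x ∈ I := by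
  classical
  rcases eq_or_ne I ⊤ with rfl | hI
  · trivial
  have : Nontrivial (R ⧸ I) := Ideal.Quotient.nontrivial_iff.2 hI
  have : IsLocalRing (R ⧸ I) := .of_surjective' _ Ideal.Quotient.mk_surjective
  have : IsNoetherianRing (R ⧸ I) :=
    isNoetherianRing_of_surjective R _ (Ideal.Quotient.mk I) Ideal.Quotient.mk_surjective
  suffices key : ∀ n : ℕ, x ∈ I ⊔ maximalIdeal R ^ n by
    rw [← Ideal.Quotient.eq_zero_iff_mem, ← Ideal.mem_bot,
      ← Ideal.iInf_pow_eq_bot_of_isLocalRing (maximalIdeal (R ⧸ I)) (maximalIdeal.isMaximal _).ne_top,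
      Ideal.mem_iInf]
    intro n
    obtain ⟨a, ha, b, hb, he⟩ := Submodule.mem_sup.1 (key n)
    rw [← he, map_add, Ideal.Quotient.eq_zero_iff_mem.2 ha, zero_add]
    have hle : (maximalIdeal R).map (Ideal.Quotient.mk I) ≤ maximalIdeal (R ⧸ I) :=
      Ideal.map_le_iff_le_comap.2 fun z hz hu => hz
        (have := IsLocalHom.of_surjective _ (Ideal.Quotient.mk_surjective (I := I))
         isUnit_of_map_unit _ z hu)
    exact Ideal.pow_right_mono hle n (Ideal.map_pow (Ideal.Quotient.mk I) _ n ▸
      Ideal.mem_map_of_mem _ hb)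
  intro n
  obtain ⟨p, hp⟩ := exists_poly_approx hw hgen hres ((B + 1) * n) x
  -- the image of the approximation has no coefficient in low degree
  have hlow : ∀ d : τ →₀ ℕ, d.degree < (B + 1) * n →
      coeff d (ψ (MvPolynomial.aeval w p)) = 0 := by
    intro d hd
    obtain ⟨a, ha, b, hb, he⟩ := Submodule.mem_sup.1 hp
    have h1 : ψ (MvPolynomial.aeval w p) = - ψ b := by
      have h2 := congrArg ψ he
      rw [map_add, map_sub, hψI a ha, hx, zero_add, zero_sub] at h2
      rw [h2, neg_neg]
    have h3 : ψ b ∈ maximalIdeal (MvPowerSeries τ k) ^ ((B + 1) * n) := by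
      have h4 := Ideal.mem_map_of_mem ψ hb
      rw [Ideal.map_pow] at h4
      exact Ideal.pow_right_mono (Ideal.map_le_iff_le_comap.2 hψm) _ h4
    have h5 := DefRing.coeff_mem_of_mem_pow_maximalIdeal h3 d
    rw [hk, ← Ideal.zero_eq_bot, zero_pow (by omega), Ideal.zero_eq_bot, Ideal.mem_bot] at h5
    rw [h1, map_neg, h5, neg_zero]
  have hψp : ψ (MvPolynomial.aeval w p) =
      ∑ e ∈ p.support, monomial (imgExp L e) (χ (p.coeff e)) := by
    conv_lhs => rw [p.as_sum, map_sum, map_sum]
    refine Finset.sum_congr rfl fun e _ => ?_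
    rw [MvPolynomial.aeval_monomial, map_mul, hψC, map_finsuppProd]
    simp only [map_pow, hval]
    rw [prod_monomial_pow, show (C (χ (p.coeff e)) : MvPowerSeries τ k) =
      monomial 0 (χ (p.coeff e)) from rfl, monomial_mul_monomial, zero_add, mul_one]
  set W : (σ →₀ ℕ) → R := fun e => e.prod fun i n => w i ^ n with hW
  have hp' : MvPolynomial.aeval w p = ∑ e ∈ p.support, algebraMap O R (p.coeff e) * W e := by
    conv_lhs => rw [p.as_sum, map_sum]
    exact Finset.sum_congr rfl fun e _ => MvPolynomial.aeval_monomial w _ _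
  have hpmem : MvPolynomial.aeval w p ∈ I ⊔ maximalIdeal R ^ n := by
    rw [hp', ← Finset.sum_filter_add_sum_filter_not p.support
      (fun e => (imgExp L e).degree < (B + 1) * n)]
    refine add_mem (Ideal.mem_sup_left ?_) (Ideal.mem_sup_right (sum_mem fun e he => ?_))
    · rw [← Finset.sum_fiberwise_of_maps_to (g := imgExp L)
        (fun e he => Finset.mem_image_of_mem (imgExp L) he)]
      refine sum_mem fun d hd => ?_
      obtain ⟨e₀, he₀, rfl⟩ := Finset.mem_image.1 hd
      set F := ((p.support.filter fun e => (imgExp L e).degree < (B + 1) * n).filter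
        fun e => imgExp L e = imgExp L e₀) with hF
      have h0 : χ (∑ e ∈ F, p.coeff e) = 0 := by
        have h1 := hlow (imgExp L e₀) (Finset.mem_filter.1 he₀).2
        rw [hψp, map_sum] at h1
        simp only [coeff_monomial] at h1
        rw [← Finset.sum_filter] at h1
        rw [map_sum]
        refine (Finset.sum_congr ?_ fun _ _ => rfl).trans h1
        ext e
        simp only [hF, Finset.mem_filter]
        constructor
        · exact fun h => ⟨h.1.1, h.2.symm⟩
        · exact fun h => ⟨⟨h.1, h.2 ▸ (Finset.mem_filter.1 he₀).2⟩, h.2.symm⟩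
      have e1 : ∑ e ∈ F, algebraMap O R (p.coeff e) * W e =
          (∑ e ∈ F, algebraMap O R (p.coeff e) * (W e - W e₀)) +
            algebraMap O R (∑ e ∈ F, p.coeff e) * W e₀ := by
        rw [map_sum, Finset.sum_mul, ← Finset.sum_add_distrib]
        exact Finset.sum_congr rfl fun e _ => by ring
      rw [e1]
      exact add_mem (sum_mem fun e he => Ideal.mul_mem_left _ _
        (hbin e e₀ (Finset.mem_filter.1 he).2)) (Ideal.mul_mem_right _ _ (hχ _ h0))
    · refine Ideal.mul_mem_left _ _ (Ideal.pow_le_pow_right ?_ (prod_pow_mem hw e))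
      have h1 := (Finset.mem_filter.1 he).2
      have h2 := degree_imgExp_le hB e
      by_contra hne
      apply h1
      calc (imgExp L e).degree ≤ B * e.degree := h2
        _ ≤ B * n := Nat.mul_le_mul_left _ (by omega)
        _ < (B + 1) * n := by rw [add_mul, one_mul]; omega
  have : x = (x - MvPolynomial.aeval w p) + MvPolynomial.aeval w p := by ring
  rw [this]
  refine add_mem ?_ hpmem
  obtain ⟨a, ha, b, hb, he⟩ := Submodule.mem_sup.1 hp
  rw [← he]
  exact add_mem (Ideal.mem_sup_left ha)
    (Ideal.mem_sup_right (Ideal.pow_le_pow_right (Nat.le_mul_of_pos_left n (by omega)) hb))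

end Fermat.Agent.Engine.LocalType
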