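import Fermat.Agent.Engine.LocalType.Kind
import Fermat.Agent.Engine.LocalType.MonomialKernel
import Fermat.Agent.Deform.Relative
import Fermat.Agent.Patch.PowerSeries

/-!
# The coordinate rings of all the primes together

The conjugated coordinates, the points attached to charts, and the generators of the maximal ideal.
-/

noncomputable section

namespace Fermat.Agent.Engine.LocalType

open IsLocalRing Matrix

variable {O : Type} [CommRing O] [IsLocalRing O]

/-- Existence of a normal form. -/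
theorem exists_kind {q : ℕ} {A : Matrix (Fin 2) (Fin 2) O} {τ : CompType}
    (hc : Compatible q A τ) :
    ∃ (P P' : Matrix (Fin 2) (Fin 2) O) (K : Kind),
      P * P' = 1 ∧ K.type = τ ∧ K.Good q (P * A * P') := by
  set m := maximalIdeal O
  have hP : (!![1, 1; 0, 1] : Matrix (Fin 2) (Fin 2) O) * !![1, -1; 0, 1] = 1 := by
    ext i j; fin_cases i <;> fin_cases j <;> simp [Matrix.mul_apply, Fin.sum_univ_two]
  have hS : (!![0, 1; 1, 0] : Matrix (Fin 2) (Fin 2) O) * !![0, 1; 1, 0] = 1 := by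
    ext i j; fin_cases i <;> fin_cases j <;> simp [Matrix.mul_apply, Fin.sum_univ_two]
  have hdetc : ∀ P P' : Matrix (Fin 2) (Fin 2) O, P * P' = 1 → (P * A * P').det = A.det := by
    intro P P' h
    rw [Matrix.det_mul, Matrix.det_mul, mul_comm P.det, mul_assoc, ← Matrix.det_mul, h,
      Matrix.det_one, mul_one]
  have htrc : ∀ P P' : Matrix (Fin 2) (Fin 2) O, P * P' = 1 → (P * A * P').trace = A.trace := by
    intro P P' h
    rw [Matrix.trace_mul_cycle, mul_eq_one_comm.mp h, one_mul]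
  have hnu : ∀ {x : O}, ¬ IsUnit x → x ∈ m := fun h => h
  cases τ with
  | unramified =>
    obtain ⟨hq, hd⟩ := hc
    by_cases ha : IsUnit (A 0 0)
    · exact ⟨1, 1, .unr, one_mul 1, rfl, by simpa [Kind.Good] using And.intro ha hd⟩
    refine ⟨_, _, .unr, hP, rfl, ?_, by rw [hdetc _ _ hP]; exact hd⟩
    have hc0 : IsUnit (A 1 0) := by
      by_contra hn
      have h1 : A.det ∈ m := by
        rw [Matrix.det_fin_two]
        exact sub_mem (Ideal.mul_mem_right _ _ (hnu ha)) (Ideal.mul_mem_left _ _ (hnu hn))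
      exact absurd hq (show (q : O) ∈ m by simpa using sub_mem h1 hd)
    simp [Matrix.mul_apply, Fin.sum_univ_two, Matrix.vecMul, dotProduct]
    by_contra hn
    exact absurd hc0 (show A 1 0 ∈ m by simpa using sub_mem (hnu hn) (hnu ha))
  | steinberg γ =>
    obtain ⟨-, hd, ht⟩ := hc
    by_cases hb : IsUnit (A 0 1)
    · exact ⟨1, 1, .smooth γ, one_mul 1, rfl, by simpa [Kind.Good] using And.intro hb ⟨hd, ht⟩⟩
    by_cases hc0 : IsUnit (A 1 0)
    · refine ⟨_, _, .smooth γ, hS, rfl, ?_, by rw [hdetc _ _ hS]; exact hd,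
        by rw [htrc _ _ hS]; exact ht⟩
      simpa [Matrix.mul_apply, Fin.sum_univ_two, Matrix.vecMul, dotProduct] using hc0
    by_cases had : IsUnit (A 1 1 - A 0 0)
    · refine ⟨_, _, .smooth γ, hP, rfl, ?_, by rw [hdetc _ _ hP]; exact hd,
        by rw [htrc _ _ hP]; exact ht⟩
      simp [Matrix.mul_apply, Fin.sum_univ_two, Matrix.vecMul, dotProduct]
      by_contra hn
      have := add_mem (sub_mem (hnu hn) (hnu hb)) (hnu hc0)
      apply (show A 1 1 - A 0 0 ∉ m from fun h => h had)
      convert this using 1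
      ring
    -- residually scalar
    refine ⟨1, 1, .cone γ, one_mul 1, rfl, ?_⟩
    rw [one_mul, mul_one]
    let π := residue O
    have z : ∀ {x : O}, x ∈ m → π x = 0 := fun h => (residue_eq_zero_iff _).2 h
    have eb := z (hnu hb)
    have ec := z (hnu hc0)
    have ead := z (hnu had)
    have ed := z hd
    have et := z ht
    simp [Matrix.det_fin_two, Matrix.trace_fin_two, map_signCast, eb, ec] at ead ed et
    have hγ : (signCast γ : ResidueField O) * signCast γ = 1 := signCast_mul_self γ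
    have hq : π (q : O) = 1 := by
      have : ((q : ResidueField O) - 1) * ((q : ResidueField O) - 1) = 0 := by grind
      simpa [sub_eq_zero] using this
    simp at hq
    have e00 : π (A 0 0) = signCast γ := by
      have : (π (A 0 0) - signCast γ) * (π (A 0 0) - signCast γ) = 0 := by grind
      simpa [sub_eq_zero] using this
    have e11 : π (A 1 1) = signCast γ := by rw [← e00]; exact sub_eq_zero.1 ead
    refine ⟨(residue_eq_zero_iff _).1 (by simp [hq]), fun i j => (residue_eq_zero_iff _).1 ?_⟩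
    fin_cases i <;> fin_cases j
    · show π _ = 0; simp [map_signCast, e00]
    · show π _ = 0; simp [eb]
    · show π _ = 0; simp [ec]
    · show π _ = 0; simp [map_signCast, e11]

variable {T : Type} {g : ℕ}

/-- The variable part of the Frobenius at `r`. -/
def locX (r : T) : Matrix (Fin 2) (Fin 2) (LocRing O T g) :=
  Matrix.of fun i j => MvPowerSeries.X (Sum.inl (r, i, j))

omit [IsLocalRing O] in
/-- The Frobenius as constants plus variables. -/
theorem locFrob_eq (Φ₀ : T → Matrix (Fin 2) (Fin 2) O) (r : T) :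
    locFrob (g := g) Φ₀ r = (MvPowerSeries.C : O →+* LocRing O T g).mapMatrix (Φ₀ r) + locX r := by
  ext i j
  simp [locFrob, locX]

/-- Conjugation of a matrix of coordinates. -/
def conjC (P P' : Matrix (Fin 2) (Fin 2) O) (M : Matrix (Fin 2) (Fin 2) (LocRing O T g)) :
    Matrix (Fin 2) (Fin 2) (LocRing O T g) :=
  (MvPowerSeries.C : O →+* LocRing O T g).mapMatrix P * M *
    (MvPowerSeries.C : O →+* LocRing O T g).mapMatrix P'

omit [IsLocalRing O] in
/-- A ring map applied to conjugated coordinates. -/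
theorem map_conjC {B : Type} [CommRing B] (f : LocRing O T g →+* B)
    (P P' : Matrix (Fin 2) (Fin 2) O) (M : Matrix (Fin 2) (Fin 2) (LocRing O T g)) :
    f.mapMatrix (conjC P P' M) = (f.comp MvPowerSeries.C).mapMatrix P * f.mapMatrix M *
      (f.comp MvPowerSeries.C).mapMatrix P' := by
  rw [conjC, map_mul, map_mul]
  rfl

omit [IsLocalRing O] in
/-- Conjugation preserves entries in an ideal. -/
theorem conjC_mem {I : Ideal (LocRing O T g)} {P P' : Matrix (Fin 2) (Fin 2) O}
    {M : Matrix (Fin 2) (Fin 2) (LocRing O T g)} (h : ∀ i j, M i j ∈ I) (i j : Fin 2) :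
    conjC P P' M i j ∈ I := by
  rw [conjC, Matrix.mul_apply]
  refine sum_mem fun l _ => Ideal.mul_mem_right _ _ ?_
  rw [Matrix.mul_apply]
  exact sum_mem fun l' _ => Ideal.mul_mem_left _ _ (h _ _)

/-- Coordinates of matrices with entries in an ideal lie in it. -/
theorem wOf_mem {B : Type} [CommRing B] {I : Ideal B} (K : Kind)
    {X N : Matrix (Fin 2) (Fin 2) B} (hX : ∀ i j, X i j ∈ I) (hN : ∀ i j, N i j ∈ I)
    (c : Bool) (k : Fin 3) : wOf K X N c k ∈ I := by
  cases K <;> cases c <;> fin_cases k <;>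
    first | exact hX _ _ | exact hN _ _ | exact neg_mem (hX _ _) | exact neg_mem (hN _ _)

omit [IsLocalRing O] in
/-- The equations in conjugated coordinates. -/
theorem sat_conj {B : Type} [CommRing B] (f : LocRing O T g →+* B) {qv : T → ℕ}
    {Φ₀ : T → Matrix (Fin 2) (Fin 2) O} {τ : T → CompType}
    (hJ : typeIdeal qv Φ₀ τ ≤ RingHom.ker f) (r : T) {P P' : Matrix (Fin 2) (Fin 2) O}
    (h : P * P' = 1) {K : Kind} (hK : K.type = τ r) :
    Sat (qv r) ((f.comp MvPowerSeries.C).mapMatrix (P * Φ₀ r * P') +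
        f.mapMatrix (conjC P P' (locX r))) (f.mapMatrix (conjC P P' (locMono r))) K.type := by
  have h1 : (f.comp MvPowerSeries.C).mapMatrix P * (f.comp MvPowerSeries.C).mapMatrix P' = 1 := by
    rw [← map_mul, h, map_one]
  have := ((typeIdeal_le_ker_iff f qv Φ₀ τ).1 hJ r).conj h1
  rw [hK, map_conjC, map_conjC]
  convert this using 1
  rw [locFrob_eq, map_add, mul_add, add_mul, map_mul, map_mul]
  rfl

omit [IsLocalRing O] in
/-- Undo the conjugation. -/
theorem map_eq_zero_of_conjC {B : Type} [CommRing B] (f : LocRing O T g →+* B)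
    {P P' : Matrix (Fin 2) (Fin 2) O} (h : P * P' = 1)
    {M : Matrix (Fin 2) (Fin 2) (LocRing O T g)} (hM : f.mapMatrix (conjC P P' M) = 0) :
    f.mapMatrix M = 0 := by
  set φ := f.comp (MvPowerSeries.C : O →+* LocRing O T g)
  have h' : φ.mapMatrix P' * φ.mapMatrix P = 1 := by
    rw [← map_mul, mul_eq_one_comm.mp h, map_one]
  calc f.mapMatrix M = φ.mapMatrix P' * (φ.mapMatrix P * f.mapMatrix M * φ.mapMatrix P') *
        φ.mapMatrix P := by
        simp only [mul_assoc, h', mul_one]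
        rw [← mul_assoc, h', one_mul]
    _ = 0 := by rw [← map_conjC, hM, mul_zero, zero_mul]

variable [Finite T]

/-- An ideal containing the scalars of `m` and all variables contains the maximal ideal. -/
theorem maximalIdeal_le_of_X_mem {Q : Ideal (LocRing O T g)}
    (hC : ∀ o ∈ maximalIdeal O, MvPowerSeries.C o ∈ Q) (hX : ∀ i, MvPowerSeries.X i ∈ Q) :
    maximalIdeal (LocRing O T g) ≤ Q := by
  classical
  intro f hf
  rw [DefRing.mem_maximalIdeal_iff_constantCoeff] at hf
  have h := DefRing.sub_truncTotal_mem_span_pow f 1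
  rw [pow_one] at h
  have e : (MvPowerSeries.truncTotal 1 f : LocRing O T g) =
      MvPowerSeries.C (MvPowerSeries.constantCoeff f) := by
    ext e
    rw [MvPolynomial.coeff_coe, MvPowerSeries.coeff_truncTotal_eq_ite, MvPowerSeries.coeff_C]
    rcases eq_or_ne e 0 with rfl | he
    · simp
    · rw [if_neg he, if_neg]
      have : Finsupp.degree e ≠ 0 := by simpa [Finsupp.degree_eq_zero_iff] using he
      omega
  rw [e] at h
  simpa using add_mem (Ideal.span_le.2 (Set.range_subset_iff.2 hX) h) (hC _ hf)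

/-- All variables are in `Q` if the coordinates and the global variables are. -/
theorem maximalIdeal_le_of_coords {Q : Ideal (LocRing O T g)}
    (hC : ∀ o ∈ maximalIdeal O, MvPowerSeries.C o ∈ Q) (P P' : T → Matrix (Fin 2) (Fin 2) O)
    (hP : ∀ r, P r * P' r = 1)
    (hX : ∀ r, (Ideal.Quotient.mk Q).mapMatrix (conjC (P r) (P' r) (locX r)) = 0 ∧
      (Ideal.Quotient.mk Q).mapMatrix (conjC (P r) (P' r) (locMono r)) = 0)
    (hg : ∀ l : Fin g, MvPowerSeries.X (Sum.inr (Sum.inr l)) ∈ Q) :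
    maximalIdeal (LocRing O T g) ≤ Q := by
  refine maximalIdeal_le_of_X_mem hC fun i => ?_
  rw [← Ideal.Quotient.eq_zero_iff_mem]
  rcases i with ⟨r, i, j⟩ | ⟨r, i, j⟩ | l
  · exact congrFun₂ (map_eq_zero_of_conjC _ (hP r) (hX r).1) i j
  · exact congrFun₂ (map_eq_zero_of_conjC _ (hP r) (hX r).2) i j
  · exact Ideal.Quotient.eq_zero_iff_mem.2 (hg l)

/-- **Points from charts.** -/
theorem exists_chart_point {D : Type} [CommRing D] [IsLocalRing D]
    [IsAdicComplete (maximalIdeal D) D] [Algebra O D] [IsLocalHom (algebraMap O D)]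
    (qv : T → ℕ) (Φ₀ : T → Matrix (Fin 2) (Fin 2) O) (τ : T → CompType)
    (P P' : T → Matrix (Fin 2) (Fin 2) O) (K : T → Kind) (hP : ∀ r, P r * P' r = 1)
    (hK : ∀ r, (K r).type = τ r) (hgood : ∀ r, (K r).Good (qv r) (P r * Φ₀ r * P' r))
    (x : T → Fin 3 → D) (hx : ∀ r j, x r j ∈ maximalIdeal D) (y : Fin g → D)
    (hy : ∀ l, y l ∈ maximalIdeal D) :
    ∃ θ : LocRing O T g →ₐ[O] D, IsLocalHom (θ : LocRing O T g →+* D) ∧
      typeIdeal qv Φ₀ τ ≤ RingHom.ker (θ : LocRing O T g →+* D) ∧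
      (∀ r c k, θ (wOf (K r) (conjC (P r) (P' r) (locX r)) (conjC (P r) (P' r) (locMono r)) c k) -
        ∏ j, x r j ^ wt (K r) c k j ∈ (maximalIdeal O).map (algebraMap O D)) ∧
      (∀ l, θ (MvPowerSeries.X (Sum.inr (Sum.inr l))) = y l) ∧
      ∀ r γ, τ r = .steinberg γ →
        θ (conjC (P r) (P' r) (locMono r) 0 1) = x r 2 ∧
          (x r 2 = 0 → (θ : LocRing O T g →+* D).mapMatrix (locMono r) = 0) := by
  set φ := algebraMap O D
  have hφ : ∀ o ∈ maximalIdeal O, φ o ∈ maximalIdeal D := fun o ho hu =>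
    ho (isUnit_of_map_unit φ o hu)
  choose Φ N hsat hΦ hN hw hst using fun r => exists_chart φ hφ (K r) (hgood r) (x r) (hx r)
  have hPD : ∀ r, φ.mapMatrix (P r) * φ.mapMatrix (P' r) = 1 := fun r => by
    rw [← map_mul, hP r, map_one]
  have hPD' : ∀ r, φ.mapMatrix (P' r) * φ.mapMatrix (P r) = 1 := fun r => mul_eq_one_comm.mp (hPD r)
  have hmem : ∀ (M P Q : Matrix (Fin 2) (Fin 2) D), (∀ i j, M i j ∈ maximalIdeal D) →
      ∀ i j, (P * M * Q) i j ∈ maximalIdeal D := by
    intro M P Q h i j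
    rw [Matrix.mul_apply]
    refine sum_mem fun l _ => Ideal.mul_mem_right _ _ ?_
    rw [Matrix.mul_apply]
    exact sum_mem fun l' _ => Ideal.mul_mem_left _ _ (h _ _)
  let vX : T → Matrix (Fin 2) (Fin 2) D := fun r =>
    φ.mapMatrix (P' r) * (Φ r - φ.mapMatrix (P r * Φ₀ r * P' r)) * φ.mapMatrix (P r)
  let vN : T → Matrix (Fin 2) (Fin 2) D := fun r =>
    φ.mapMatrix (P' r) * N r * φ.mapMatrix (P r)
  let val : LocVar T g → D :=
    Sum.elim (fun p => vX p.1 p.2.1 p.2.2) (Sum.elim (fun p => vN p.1 p.2.1 p.2.2) y)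
  obtain ⟨θ, hloc, hθ⟩ := Deform.exists_algHom_powerSeries (B := O) val (by
    rintro (⟨r, i, j⟩ | ⟨r, i, j⟩ | l)
    · exact hmem _ _ _ (hΦ r) i j
    · exact hmem _ _ _ (hN r) i j
    · exact hy l)
  let θ' : LocRing O T g →+* D := θ
  have hθC : θ'.comp MvPowerSeries.C = φ := RingHom.ext fun o => θ.commutes o
  have hθX : ∀ r, θ'.mapMatrix (locX r) = vX r := fun r => by
    ext i j; exact hθ (Sum.inl (r, i, j))
  have hθN : ∀ r, θ'.mapMatrix (locMono r) = vN r := fun r => by
    ext i j; exact hθ (Sum.inr (Sum.inl (r, i, j)))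
  have hback : ∀ r (M : Matrix (Fin 2) (Fin 2) D),
      φ.mapMatrix (P r) * (φ.mapMatrix (P' r) * M * φ.mapMatrix (P r)) * φ.mapMatrix (P' r) = M := by
    intro r M
    simp only [mul_assoc, hPD r, mul_one]
    rw [← mul_assoc, hPD r, one_mul]
  have hcX : ∀ r, θ'.mapMatrix (conjC (P r) (P' r) (locX r)) =
      Φ r - φ.mapMatrix (P r * Φ₀ r * P' r) := fun r => by
    rw [map_conjC, hθC, hθX]; exact hback r _
  have hcN : ∀ r, θ'.mapMatrix (conjC (P r) (P' r) (locMono r)) = N r := fun r => by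
    rw [map_conjC, hθC, hθN]; exact hback r _
  refine ⟨θ, hloc, (typeIdeal_le_ker_iff θ' qv Φ₀ τ).2 fun r => ?_, fun r c k => ?_,
    fun l => hθ _, fun r γ hγ => ?_⟩
  · have hs := (hsat r).conj (hPD' r)
    rw [hK r] at hs
    convert hs using 1
    · rw [locFrob_eq, map_add, hθX]
      have e : θ'.mapMatrix ((MvPowerSeries.C : O →+* LocRing O T g).mapMatrix (Φ₀ r)) =
          φ.mapMatrix (Φ₀ r) := by rw [← hθC]; rfl
      have e' : φ.mapMatrix (P' r) * φ.mapMatrix (P r * Φ₀ r * P' r) * φ.mapMatrix (P r) =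
          φ.mapMatrix (Φ₀ r) := by
        rw [map_mul, map_mul]
        simp only [mul_assoc, hPD' r, mul_one]
        rw [← mul_assoc, hPD' r, one_mul]
      rw [e]
      simp only [vX, mul_sub, sub_mul, e']
      abel
    · rw [hθN]
  · rw [show θ (wOf (K r) _ _ c k) = θ' (wOf (K r) _ _ c k) from rfl, map_wOf, hcX, hcN]
    exact hw r c k
  · obtain ⟨h1, h2⟩ := hst r γ (by rw [hK r]; exact hγ)
    refine ⟨(congrFun₂ (hcN r) 0 1).trans h1, fun h0 => ?_⟩
    rw [hθN]
    simp [vN, h2 h0]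

end Fermat.Agent.Engine.LocalType
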