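import Mathlib
import Fermat.Agent.Engine.LocalType.Defs

/-!
# The equations of a type as a property of a pair of matrices
-/

noncomputable section

namespace Fermat.Agent.Engine

open Matrix

variable {B : Type} [CommRing B]

/-- The pair `(Φ, N)` satisfies the equations of a type of norm `q`. -/
def Sat (q : ℕ) (Φ N : Matrix (Fin 2) (Fin 2) B) : CompType → Prop
  | .unramified => Φ.det = (q : B) ∧ N = 0
  | .steinberg γ => Φ.det = (q : B) ∧ Φ.trace = signCast γ * ((q : B) + 1) ∧ N.trace = 0 ∧
      N.det = 0 ∧ N * Φ = (signCast γ : B) • N ∧ Φ * N = (signCast γ * (q : B)) • N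

/-- The sign is preserved by ring maps. -/
theorem map_signCast {C : Type} [Ring C] {D : Type} [Ring D] (f : C →+* D) (γ : ℤˣ) :
    f (signCast γ) = signCast γ := by
  simp [signCast]

/-- The square of a sign is one. -/
theorem signCast_mul_self {C : Type} [Ring C] (γ : ℤˣ) :
    (signCast γ : C) * signCast γ = 1 := by
  rw [signCast, ← Int.cast_mul, ← Units.val_mul, Int.units_mul_self, Units.val_one, Int.cast_one]

/-- The equations are invariant under conjugation. -/
theorem Sat.conj {q : ℕ} {Φ N P P' : Matrix (Fin 2) (Fin 2) B} (h : P * P' = 1) {τ : CompType}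
    (hs : Sat q Φ N τ) : Sat q (P * Φ * P') (P * N * P') τ := by
  have h' : P' * P = 1 := mul_eq_one_comm.mp h
  have hdet : ∀ M : Matrix (Fin 2) (Fin 2) B, (P * M * P').det = M.det := fun M => by
    rw [Matrix.det_mul, Matrix.det_mul, mul_comm P.det, mul_assoc, ← Matrix.det_mul, h,
      Matrix.det_one, mul_one]
  have htr : ∀ M : Matrix (Fin 2) (Fin 2) B, (P * M * P').trace = M.trace := fun M => by
    rw [Matrix.trace_mul_cycle, h', one_mul]
  cases τ with
  | unramified =>
    obtain ⟨h1, h2⟩ := hs
    exact ⟨by rw [hdet, h1], by rw [h2, mul_zero, zero_mul]⟩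
  | steinberg γ =>
    obtain ⟨h1, h2, h3, h4, h5, h6⟩ := hs
    refine ⟨by rw [hdet, h1], by rw [htr, h2], by rw [htr, h3], by rw [hdet, h4], ?_, ?_⟩
    · rw [show P * N * P' * (P * Φ * P') = P * (N * (P' * P) * Φ) * P' by simp only [mul_assoc],
        h', mul_one, h5, mul_smul_comm, smul_mul_assoc]
    · rw [show P * Φ * P' * (P * N * P') = P * (Φ * (P' * P) * N) * P' by simp only [mul_assoc],
        h', mul_one, h6, mul_smul_comm, smul_mul_assoc]

variable {O : Type} [CommRing O] {T : Type} {g : ℕ}

/-- A ring map kills the equations of a type at one prime iff the images satisfy them. -/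
theorem typeRels_map_eq_zero_iff (f : LocRing O T g →+* B) (q : ℕ)
    (Φ N : Matrix (Fin 2) (Fin 2) (LocRing O T g)) (τ : CompType) :
    (∀ x ∈ typeRels q Φ N τ, f x = 0) ↔ Sat q (f.mapMatrix Φ) (f.mapMatrix N) τ := by
  have hdet : ∀ M : Matrix (Fin 2) (Fin 2) (LocRing O T g),
      (f.mapMatrix M).det = f M.det := fun M => (f.map_det M).symm
  have htr : ∀ M : Matrix (Fin 2) (Fin 2) (LocRing O T g),
      (f.mapMatrix M).trace = f M.trace := fun M => by
    simp [Matrix.trace, RingHom.mapMatrix_apply]
  have hsm : ∀ (c : LocRing O T g) (M : Matrix (Fin 2) (Fin 2) (LocRing O T g)),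
      f.mapMatrix (c • M) = f c • f.mapMatrix M := fun c M => by
    ext i j; simp
  cases τ with
  | unramified =>
    simp only [typeRels, Set.mem_union, Set.mem_singleton_iff, Set.mem_range, or_imp, forall_and,
      forall_eq, forall_exists_index, forall_apply_eq_imp_iff, Sat, map_sub, sub_eq_zero,
      map_natCast, hdet]
    refine and_congr Iff.rfl ⟨fun h => ?_, fun h x => ?_⟩
    · ext i j; exact h (i, j)
    · exact congrFun₂ h x.1 x.2
  | steinberg γ =>
    simp only [typeRels, Set.mem_union, Set.mem_insert_iff, Set.mem_singleton_iff, Set.mem_range,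
      or_imp, forall_and, forall_eq, forall_exists_index, forall_apply_eq_imp_iff, Sat, map_sub,
      sub_eq_zero, map_natCast, map_mul, map_add, map_one, map_signCast, hdet, htr]
    have hext : ∀ A A' : Matrix (Fin 2) (Fin 2) (LocRing O T g),
        f.mapMatrix A = f.mapMatrix A' ↔ ∀ x : Fin 2 × Fin 2, f ((A - A') x.1 x.2) = 0 := by
      intro A A'
      constructor
      · intro h x
        rw [Matrix.sub_apply, map_sub, sub_eq_zero]
        exact congrFun₂ h x.1 x.2
      · intro h
        ext i j
        have := h (i, j)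
        rwa [Matrix.sub_apply, map_sub, sub_eq_zero] at this
    have h5 := hext (N * Φ) ((signCast γ : LocRing O T g) • N)
    have h6 := hext (Φ * N) ((signCast γ * (q : LocRing O T g)) • N)
    rw [map_mul, hsm, map_signCast] at h5
    rw [map_mul, hsm, map_mul, map_signCast, map_natCast] at h6
    rw [← h5, ← h6]
    tauto

/-- A ring map kills a type ideal iff the images satisfy the equations at every prime. -/
theorem typeIdeal_le_ker_iff (f : LocRing O T g →+* B) (qv : T → ℕ)
    (Φ₀ : T → Matrix (Fin 2) (Fin 2) O) (τ : T → CompType) :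
    typeIdeal (g := g) qv Φ₀ τ ≤ RingHom.ker f ↔
      ∀ r, Sat (qv r) (f.mapMatrix (locFrob Φ₀ r)) (f.mapMatrix (locMono r)) (τ r) := by
  rw [typeIdeal, Ideal.span_le, Set.iUnion_subset_iff]
  exact forall_congr' fun r => typeRels_map_eq_zero_iff f _ _ _ _

end Fermat.Agent.Engine
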