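import Mathlib
import Fermat.Agent.Engine.LocalType.Sat
import Fermat.Agent.Engine.LocalType.Binomial
import Fermat.Agent.Patch.SteinbergChart

/-!
# The three local normal forms of a type at one prime

After conjugation the residual Frobenius `A` is in one of three forms: unramified with a unit
corner, Steinberg with a unit off diagonal entry (both smooth), or Steinberg with `A ≡ γ` (the cone
over a conic).  For each: coordinates `wOf`, their exponents in the chart, the chart itself.
-/

noncomputable section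

namespace Fermat.Agent.Engine.LocalType

open IsLocalRing Matrix Patch

/-- The normal forms. -/
inductive Kind : Type
  | unr
  | smooth (γ : ℤˣ)
  | cone (γ : ℤˣ)

/-- The type of a normal form. -/
def Kind.type : Kind → CompType
  | .unr => .unramified
  | .smooth γ => .steinberg γ
  | .cone γ => .steinberg γ

variable {O : Type} [CommRing O] [IsLocalRing O]

/-- The residual conditions of a normal form. -/
def Kind.Good (q : ℕ) (A : Matrix (Fin 2) (Fin 2) O) : Kind → Prop
  | .unr => IsUnit (A 0 0) ∧ A.det - (q : O) ∈ maximalIdeal O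
  | .smooth γ => IsUnit (A 0 1) ∧ A.det - (q : O) ∈ maximalIdeal O ∧
      A.trace - signCast γ * ((q : O) + 1) ∈ maximalIdeal O
  | .cone γ => (q : O) - 1 ∈ maximalIdeal O ∧
      ∀ i j, A i j - ((signCast γ : O) • (1 : Matrix (Fin 2) (Fin 2) O)) i j ∈ maximalIdeal O

/-- The coordinates. -/
def wOf {B : Type} [CommRing B] :
    Kind → Matrix (Fin 2) (Fin 2) B → Matrix (Fin 2) (Fin 2) B → Bool → Fin 3 → B
  | .unr, X, _, _ => ![X 0 0, X 0 1, X 1 0]
  | .smooth _, X, N, _ => ![X 0 0, X 0 1, N 0 1]
  | .cone _, X, _, true => ![X 0 1, X 1 1, -X 1 0]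
  | .cone _, _, N, false => ![N 0 1, N 1 1, -N 1 0]

/-- Their exponents in the chart. -/
def wt : Kind → Bool → Fin 3 → Fin 3 → ℕ
  | .unr, _, k => Pi.single k 1
  | .smooth _, _, k => Pi.single k 1
  | .cone _, true, k => ![1, k, 0]
  | .cone _, false, k => ![0, k, 1]

/-- The exponents have total degree at most three. -/
theorem wt_sum_le (K : Kind) (c : Bool) (k : Fin 3) : wt K c k 0 + wt K c k 1 + wt K c k 2 ≤ 3 := by
  cases K <;> cases c <;> fin_cases k <;> simp [wt]

/-- `wOf` commutes with ring maps. -/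
theorem map_wOf {B C : Type} [CommRing B] [CommRing C] (f : B →+* C) (K : Kind)
    (X N : Matrix (Fin 2) (Fin 2) B) (c : Bool) (k : Fin 3) :
    f (wOf K X N c k) = wOf K (f.mapMatrix X) (f.mapMatrix N) c k := by
  cases K <;> cases c <;> fin_cases k <;> simp [wOf]

section Residual

variable {B : Type} [CommRing B] (φ : O →+* B) (hφ : ∀ o ∈ maximalIdeal O, φ o = 0)
  {q : ℕ} {A : Matrix (Fin 2) (Fin 2) O} {X N : Matrix (Fin 2) (Fin 2) B}

include hφ

/-- Congruent elements have equal images. -/
theorem eq_of_sub_mem {a b : O} (h : a - b ∈ maximalIdeal O) : φ a = φ b :=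
  sub_eq_zero.1 (by rw [← map_sub]; exact hφ _ h)

/-- In the cone case the residual data are scalar. -/
theorem cone_data {γ : ℤˣ} (h : Kind.Good q A (.cone γ)) :
    (q : B) = 1 ∧ φ.mapMatrix A = (signCast γ : B) • (1 : Matrix (Fin 2) (Fin 2) B) := by
  refine ⟨by simpa using eq_of_sub_mem φ hφ h.1, ?_⟩
  ext i j
  rw [RingHom.mapMatrix_apply, Matrix.map_apply, eq_of_sub_mem φ hφ (h.2 i j)]
  fin_cases i <;> fin_cases j <;> simp [map_signCast]

/-- The cone equations on `X = Φ - γ` and `N`. -/
theorem cone_eqs {γ : ℤˣ} (h : Kind.Good q A (.cone γ))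
    (hs : Sat q (φ.mapMatrix A + X) N (.steinberg γ)) :
    X 0 0 = -X 1 1 ∧ N 0 0 = -N 1 1 ∧ X.det = 0 ∧ N.det = 0 ∧ N * X = 0 ∧ X * N = 0 := by
  obtain ⟨hq, hA⟩ := cone_data φ hφ h
  rw [hA] at hs
  obtain ⟨h1, h2, h3, h4, h5, h6⟩ := hs
  rw [hq] at h1 h2 h6
  have hγ : (signCast γ : B) * signCast γ = 1 := signCast_mul_self γ
  simp [Matrix.trace_fin_two] at h2 h3
  simp [Matrix.det_fin_two] at h1
  have hX : X 0 0 = -X 1 1 := by linear_combination h2
  refine ⟨hX, by linear_combination h3, ?_, h4, ?_, ?_⟩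
  · rw [Matrix.det_fin_two]
    linear_combination h1 - hγ - (signCast γ : B) * hX
  · have e : N * X = N * ((signCast γ : B) • (1 : Matrix (Fin 2) (Fin 2) B) + X) -
        (signCast γ : B) • N := by
      rw [mul_add, mul_smul_comm, mul_one, add_sub_cancel_left]
    rw [e, h5, sub_self]
  · have e : X * N = ((signCast γ : B) • (1 : Matrix (Fin 2) (Fin 2) B) + X) * N -
        (signCast γ : B) • N := by
      rw [add_mul, smul_mul_assoc, one_mul, add_sub_cancel_left]
    rw [e, h6, mul_one, sub_self]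

/-- The coordinates generate the ideal of the point. -/
theorem eq_zero_of_wOf (K : Kind) (h : K.Good q A) (hs : Sat q (φ.mapMatrix A + X) N K.type)
    (hw : ∀ c k, wOf K X N c k = 0) : X = 0 ∧ N = 0 := by
  cases K with
  | unr =>
    obtain ⟨ha, hdet⟩ := h
    obtain ⟨h1, h2⟩ := hs
    have e0 := hw true 0
    have e1 := hw true 1
    have e2 := hw true 2
    simp [wOf] at e0 e1 e2
    have hd : φ A.det = (q : B) := by simpa using eq_of_sub_mem φ hφ hdet
    refine ⟨?_, h2⟩
    simp [Matrix.det_fin_two, e0, e1, e2] at h1 hd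
    have h11 : X 1 1 = 0 := (ha.map φ).mul_right_eq_zero.1 (by linear_combination h1 - hd)
    ext i j; fin_cases i <;> fin_cases j <;> simp [e0, e1, e2, h11]
  | smooth γ =>
    obtain ⟨hb, hdet, htr⟩ := h
    obtain ⟨h1, h2, h3, -, h5, -⟩ := hs
    have e0 := hw true 0
    have e1 := hw true 1
    have e2 := hw true 2
    simp [wOf] at e0 e1 e2
    have hd : φ A.det = (q : B) := by simpa using eq_of_sub_mem φ hφ hdet
    have ht : φ A.trace = signCast γ * ((q : B) + 1) := by
      simpa [map_signCast] using eq_of_sub_mem φ hφ htr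
    simp [Matrix.trace_fin_two, e0] at h2 ht h3
    have h11 : X 1 1 = 0 := by linear_combination h2 - ht
    simp [Matrix.det_fin_two, e0, e1, h11] at h1 hd
    have h10 : X 1 0 = 0 := (hb.map φ).mul_right_eq_zero.1 (by linear_combination hd - h1)
    have h01 := congrFun₂ h5 0 1
    simp [Matrix.mul_apply, Fin.sum_univ_two, e1, e2, h11] at h01
    have n00 : N 0 0 = 0 := (hb.map φ).mul_left_eq_zero.1 h01
    have n11 : N 1 1 = 0 := by linear_combination h3 - n00
    have h11' := congrFun₂ h5 1 1
    simp [Matrix.mul_apply, Fin.sum_univ_two, e1, n11, h11] at h11'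
    have n10 : N 1 0 = 0 := (hb.map φ).mul_left_eq_zero.1 h11'
    constructor <;> ext i j <;> fin_cases i <;> fin_cases j <;>
      simp [e0, e1, e2, h11, h10, n00, n11, n10]
  | cone γ =>
    obtain ⟨hx, hn, -⟩ := cone_eqs φ hφ h hs
    have y0 := hw true 0
    have y1 := hw true 1
    have y2 := hw true 2
    have n0 := hw false 0
    have n1 := hw false 1
    have n2 := hw false 2
    simp [wOf] at y0 y1 y2 n0 n1 n2
    constructor <;> ext i j <;> fin_cases i <;> fin_cases j <;>
      simp [hx, hn, y0, y1, y2, n0, n1, n2]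

/-- Monomials in the coordinates with the same exponent in the chart are equal. -/
theorem wOf_monomial_congr (K : Kind) (h : K.Good q A)
    (hs : Sat q (φ.mapMatrix A + X) N K.type) (e e' : Bool → Fin 3 → ℕ)
    (hwt : ∀ j, (∑ c : Bool, ∑ k : Fin 3, e c k * wt K c k j) =
      ∑ c : Bool, ∑ k : Fin 3, e' c k * wt K c k j) :
    (∏ c : Bool, ∏ k : Fin 3, wOf K X N c k ^ e c k) =
      ∏ c : Bool, ∏ k : Fin 3, wOf K X N c k ^ e' c k := by
  have smooth : ∀ v : Fin 3 → B, (∀ j, e true j + e false j = e' true j + e' false j) →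
      (∏ _c : Bool, ∏ k : Fin 3, v k ^ e _c k) = ∏ _c : Bool, ∏ k : Fin 3, v k ^ e' _c k := by
    intro v hv
    simp only [Fintype.prod_bool, ← Finset.prod_mul_distrib, ← pow_add, hv]
  cases K with
  | unr =>
    exact smooth _ fun j => by
      simpa [wt, Fin.sum_univ_three, Pi.single_apply, Fin.forall_fin_succ] using
        (show _ from hwt j)
  | smooth γ =>
    exact smooth _ fun j => by
      simpa [wt, Fin.sum_univ_three, Pi.single_apply, Fin.forall_fin_succ] using
        (show _ from hwt j)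
  | cone γ =>
    obtain ⟨hx, hn, hdx, hdn, hNX, hXN⟩ := cone_eqs φ hφ h hs
    have a00 := congrFun₂ hNX 0 0
    have a01 := congrFun₂ hNX 0 1
    have a10 := congrFun₂ hNX 1 0
    have a11 := congrFun₂ hNX 1 1
    simp [Matrix.mul_apply, Fin.sum_univ_two, hx, hn] at a00 a01 a10 a11
    simp [Matrix.det_fin_two, hx, hn] at hdx hdn
    let f : Bool → ℕ → B := fun c a =>
      if a = 0 then wOf (.cone γ) X N c 0 else if a = 1 then wOf (.cone γ) X N c 1
        else wOf (.cone γ) X N c 2
    have eA : X 0 1 * -X 1 0 = X 1 1 * X 1 1 := by linear_combination hdx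
    have eB : N 0 1 * -N 1 0 = N 1 1 * N 1 1 := by linear_combination hdn
    have eC : X 0 1 * N 1 1 = X 1 1 * N 0 1 := by linear_combination -a01
    have eD : X 0 1 * -N 1 0 = X 1 1 * N 1 1 := by linear_combination -a11
    have eE : -X 1 0 * N 0 1 = X 1 1 * N 1 1 := by linear_combination -a00
    have eF : X 1 1 * -N 1 0 = -X 1 0 * N 1 1 := by linear_combination a10
    have hcanon : ∀ c d a b, a ≤ 2 → b ≤ 2 →
        f c a * f d b = f c (min 2 (a + b)) * f d (a + b - min 2 (a + b)) := by
      intro c d a b ha hb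
      cases c <;> cases d <;> interval_cases a <;> interval_cases b <;> simp [f, wOf] <;>
        grind
    have hf : ∀ c d a b a' b', a ≤ 2 → b ≤ 2 → a' ≤ 2 → b' ≤ 2 → a + b = a' + b' →
        f c a * f d b = f c a' * f d b' := by
      intro c d a b a' b' ha hb ha' hb' hab
      rw [hcanon c d a b ha hb, hcanon c d a' b' ha' hb', hab]
    have h0 := hwt 0
    have h1 := hwt 1
    have h2 := hwt 2
    simp [wt, Fin.sum_univ_three] at h0 h1 h2
    simpa [f, Fin.prod_univ_three] using monomial_congr hf e e' (fun c => by cases c <;> omega) (by omega)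

/-- Three parameters. -/
theorem eq_zero_of_params [IsDomain B] (K : Kind) (h : K.Good q A)
    (hs : Sat q (φ.mapMatrix A + X) N K.type)
    (h0 : wOf K X N true 0 = 0) (h1 : wOf K X N false 2 = 0)
    (h2 : (match K with
      | .cone _ => wOf K X N true 2 - wOf K X N false 0
      | _ => wOf K X N true 1) = 0) :
    X = 0 ∧ N = 0 := by
  refine eq_zero_of_wOf φ hφ K h hs fun c k => ?_
  cases K with
  | unr => cases c <;> fin_cases k <;> simp_all [wOf]
  | smooth γ => cases c <;> fin_cases k <;> simp_all [wOf]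
  | cone γ =>
    obtain ⟨hx, hn, hdx, hdn, hNX, -⟩ := cone_eqs φ hφ h hs
    have a10 := congrFun₂ hNX 1 0
    have a01 := congrFun₂ hNX 0 1
    have a00 := congrFun₂ hNX 0 0
    have a11 := congrFun₂ hNX 1 1
    simp [Matrix.mul_apply, Fin.sum_univ_two, hx, hn] at a00 a01 a10 a11
    simp [wOf] at h0 h1 h2
    simp [Matrix.det_fin_two, hx, hn, h0, h1] at hdx hdn
    have hz : X 1 0 = 0 := by
      have : X 1 0 * X 1 0 = 0 := by grind
      simpa using this
    cases c <;> fin_cases k <;> simp [wOf] <;> grind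

/-- Two parameters on the unramified locus of a Steinberg type. -/
theorem eq_zero_of_cut_params [IsDomain B] (K : Kind) (h : K.Good q A) {γ : ℤˣ}
    (hK : K.type = .steinberg γ) (hs : Sat q (φ.mapMatrix A + X) N K.type) (hN : N = 0)
    (h0 : X 0 1 = 0) (h1 : (match K with | .cone _ => X 1 0 | _ => X 0 0) = 0) : X = 0 := by
  refine (eq_zero_of_wOf φ hφ K h hs fun c k => ?_).1
  cases K with
  | unr => simp [Kind.type] at hK
  | smooth γ' => cases c <;> fin_cases k <;> simp_all [wOf]
  | cone γ' =>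
    obtain ⟨hx, -, hdx, -⟩ := cone_eqs φ hφ h hs
    simp [Matrix.det_fin_two, hx, h0] at hdx
    cases c <;> fin_cases k <;> simp_all [wOf]

end Residual

section Chart

variable {D : Type} [CommRing D] [IsLocalRing D] (φ : O →+* D)
  (hφ : ∀ o ∈ maximalIdeal O, φ o ∈ maximalIdeal D)

omit [IsLocalRing D] in
/-- The entries of `chartN t s` are multiples of `s`. -/
theorem chartN_mem {s : D} {J : Ideal D} (hs : s ∈ J) (t : D) (i j : Fin 2) :
    chartN t s i j ∈ J := by
  obtain ⟨c, hc⟩ : ∃ c, chartN t s i j = s * c := by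
    fin_cases i <;> fin_cases j
    exacts [⟨-t, by simp [chartN]⟩, ⟨1, by simp [chartN]⟩,
      ⟨-(t * t), by simp [chartN, mul_assoc]⟩, ⟨t, by simp [chartN]⟩]
  rw [hc]
  exact J.mul_mem_right _ hs

include hφ

/-- The chart of a normal form. -/
theorem exists_chart (K : Kind) {q : ℕ} {A : Matrix (Fin 2) (Fin 2) O} (h : K.Good q A)
    (x : Fin 3 → D) (hx : ∀ j, x j ∈ maximalIdeal D) :
    ∃ Φ N : Matrix (Fin 2) (Fin 2) D, Sat q Φ N K.type ∧
      (∀ i j, (Φ - φ.mapMatrix A) i j ∈ maximalIdeal D) ∧ (∀ i j, N i j ∈ maximalIdeal D) ∧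
      (∀ c k, wOf K (Φ - φ.mapMatrix A) N c k - ∏ j, x j ^ wt K c k j ∈
        (maximalIdeal O).map φ) ∧
      ∀ γ : ℤˣ, K.type = .steinberg γ → N 0 1 = x 2 ∧ (x 2 = 0 → N = 0) := by
  have hm : (maximalIdeal O).map φ ≤ maximalIdeal D := Ideal.map_le_iff_le_comap.2 hφ
  have hmem : ∀ {a b : O}, a - b ∈ maximalIdeal O → φ a - φ b ∈ (maximalIdeal O).map φ :=
    fun h => by rw [← map_sub]; exact Ideal.mem_map_of_mem φ h
  cases K with
  | unr =>
    obtain ⟨ha, hdet⟩ := h
    have hu : IsUnit (φ (A 0 0) + x 0) := by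
      by_contra hn
      have h2 : φ (A 0 0) ∈ maximalIdeal D := by simpa using sub_mem (show _ ∈ maximalIdeal D from hn) (hx 0)
      exact h2 (ha.map φ)
    obtain ⟨u, hu⟩ := hu
    let Φ : Matrix (Fin 2) (Fin 2) D := !![φ (A 0 0) + x 0, φ (A 0 1) + x 1; φ (A 1 0) + x 2,
      ((q : D) + (φ (A 0 1) + x 1) * (φ (A 1 0) + x 2)) * (↑u⁻¹ : D)]
    refine ⟨Φ, 0, ⟨?_, rfl⟩, ?_, fun i j => by simp, ?_, fun γ hγ => by simp [Kind.type] at hγ⟩
    · simp [Φ, Matrix.det_fin_two]
      rw [← hu, mul_comm, mul_assoc, Units.inv_mul, mul_one]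
      ring
    · have h11 : (Φ - φ.mapMatrix A) 1 1 ∈ maximalIdeal D := by
        have e : (u : D) * (Φ - φ.mapMatrix A) 1 1 = (((q : D) - φ A.det) + x 1 * φ (A 1 0) +
            x 2 * φ (A 0 1) + x 1 * x 2 - x 0 * φ (A 1 1)) := by
          simp [Φ, Matrix.det_fin_two]
          rw [mul_sub, mul_comm, mul_assoc, Units.inv_mul, mul_one, hu]
          ring
        have h1 : (u : D) * (Φ - φ.mapMatrix A) 1 1 ∈ maximalIdeal D := by
          rw [e]
          refine sub_mem (add_mem (add_mem (add_mem ?_ (Ideal.mul_mem_right _ _ (hx 1)))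
            (Ideal.mul_mem_right _ _ (hx 2))) (Ideal.mul_mem_right _ _ (hx 1)))
            (Ideal.mul_mem_right _ _ (hx 0))
          have := neg_mem (hm (hmem hdet))
          simpa using this
        exact ((maximalIdeal.isMaximal D).isPrime.mem_or_mem h1).resolve_left fun h => h u.isUnit
      intro i j
      fin_cases i <;> fin_cases j <;>
        first
          | exact h11
          | (simp [Φ]; apply hx)
    · intro c k
      fin_cases k <;> simp [Φ, wOf, wt, Fin.prod_univ_three]
  | smooth γ =>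
    obtain ⟨hb, hdet, htr⟩ := h
    have hu : IsUnit (φ (A 0 1) + x 1) := by
      by_contra hn
      have h2 : φ (A 0 1) ∈ maximalIdeal D := by simpa using sub_mem (show _ ∈ maximalIdeal D from hn) (hx 1)
      exact h2 (hb.map φ)
    obtain ⟨u, hu⟩ := hu
    set g : D := signCast γ with hg
    set δ : D := g * ((q : D) - 1) with hδ
    set a' : D := φ (A 0 0) + x 0 with ha'
    set b' : D := φ (A 0 1) + x 1 with hb'
    set t : D := (δ - (a' - g)) * (↑u⁻¹ : D) with ht
    have htb : t * b' = δ - (a' - g) := by rw [ht, mul_assoc, ← hu, Units.inv_mul, mul_one]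
    have hγ : g * g = 1 := signCast_mul_self γ
    refine ⟨g • (1 : Matrix (Fin 2) (Fin 2) D) + chartX δ t b', chartN t (x 2),
      ⟨?_, ?_, ?_, ?_, ?_, ?_⟩, ?_, ?_, ?_,
      fun _ _ => ⟨by simp [chartN], fun h0 => by
        ext i j; fin_cases i <;> fin_cases j <;> simp [chartN, h0]⟩⟩
    · simp [chartX, Matrix.det_fin_two, hδ]
      linear_combination (q : D) * hγ
    · simp [chartX, Matrix.trace_fin_two, hδ]
      ring
    · simp [chartN, Matrix.trace_fin_two]
    · simp [chartN, Matrix.det_fin_two]; ring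
    · ext i j
      fin_cases i <;> fin_cases j <;>
        simp [chartX, chartN, Matrix.mul_apply, Fin.sum_univ_two, hg] <;> ring
    · ext i j
      fin_cases i <;> fin_cases j <;>
        simp [chartX, chartN, Matrix.mul_apply, Fin.sum_univ_two, hδ, hg] <;> ring
    · have hd' : φ A.det - (q : D) ∈ maximalIdeal D := by simpa using hm (hmem hdet)
      have ht' : φ A.trace - g * ((q : D) + 1) ∈ maximalIdeal D := by
        simpa [map_signCast, ← hg] using hm (hmem htr)
      simp only [Matrix.det_fin_two, Matrix.trace_fin_two, map_sub, map_add, map_mul] at hd' ht'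
      intro i j
      fin_cases i <;> fin_cases j <;> simp [chartX]
      · rw [show g + (δ - t * b') - φ (A 0 0) = x 0 by rw [htb, ha']; ring]
        exact hx 0
      · rw [show b' - φ (A 0 1) = x 1 by rw [hb']; ring]
        exact hx 1
      · -- the residual lower left entry
        have e : (u : D) * (t * (δ - t * b') - φ (A 1 0)) =
            (φ (A 0 0) * φ (A 1 1) - φ (A 0 1) * φ (A 1 0) - (q : D))
              - (φ (A 0 0) + x 0) * (φ (A 0 0) + φ (A 1 1) - g * ((q : D) + 1))
              + (φ (A 1 1) - φ (A 0 0) - x 0) * x 0 - φ (A 1 0) * x 1 := by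
          rw [hu, mul_sub, ← mul_assoc b', mul_comm b' t, htb, hδ, ha', hb']
          linear_combination (-(q : D)) * hγ
        have h1 : (u : D) * (t * (δ - t * b') - φ (A 1 0)) ∈ maximalIdeal D := by
          rw [e]
          exact sub_mem (add_mem (sub_mem hd' (Ideal.mul_mem_left _ _ ht'))
            (Ideal.mul_mem_left _ _ (hx 0))) (Ideal.mul_mem_left _ _ (hx 1))
        exact ((maximalIdeal.isMaximal D).isPrime.mem_or_mem h1).resolve_left fun h => h u.isUnit
      · rw [show g + t * b' - φ (A 1 1) =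
          -(φ (A 0 0) + φ (A 1 1) - g * ((q : D) + 1)) - x 0 by rw [htb, hδ, ha']; ring]
        exact sub_mem (neg_mem ht') (hx 0)
    · intro i j
      exact chartN_mem (hx 2) _ i j
    · intro c k
      fin_cases k <;> simp [wOf, wt, chartX, chartN, Fin.prod_univ_three]
      · rw [show g + (δ - t * b') - φ (A 0 0) - x 0 = 0 by rw [htb, ha']; ring]
        exact zero_mem _
      · rw [show b' - φ (A 0 1) - x 1 = 0 by rw [hb']; ring]
        exact zero_mem _
  | cone γ =>
    obtain ⟨hq, hA⟩ := h
    set g : D := signCast γ with hg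
    set δ : D := g * ((q : D) - 1) with hδ
    have hγ : g * g = 1 := signCast_mul_self γ
    have hδm : δ ∈ (maximalIdeal O).map φ := by
      have := (Ideal.mem_map_of_mem φ hq)
      simpa [hδ] using Ideal.mul_mem_left _ g this
    have a00 : φ (A 0 0) - g ∈ (maximalIdeal O).map φ := by
      simpa [map_signCast, ← hg] using Ideal.mem_map_of_mem φ (hA 0 0)
    have a11 : φ (A 1 1) - g ∈ (maximalIdeal O).map φ := by
      simpa [map_signCast, ← hg] using Ideal.mem_map_of_mem φ (hA 1 1)
    have a01 : φ (A 0 1) ∈ (maximalIdeal O).map φ := by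
      simpa using Ideal.mem_map_of_mem φ (hA 0 1)
    have a10 : φ (A 1 0) ∈ (maximalIdeal O).map φ := by
      simpa using Ideal.mem_map_of_mem φ (hA 1 0)
    refine ⟨g • (1 : Matrix (Fin 2) (Fin 2) D) + chartX δ (x 1) (x 0), chartN (x 1) (x 2),
      ⟨?_, ?_, ?_, ?_, ?_, ?_⟩, ?_, ?_, ?_,
      fun _ _ => ⟨by simp [chartN], fun h0 => by
        ext i j; fin_cases i <;> fin_cases j <;> simp [chartN, h0]⟩⟩
    · simp [chartX, Matrix.det_fin_two, hδ]
      linear_combination (q : D) * hγ
    · simp [chartX, Matrix.trace_fin_two, hδ]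
      ring
    · simp [chartN, Matrix.trace_fin_two]
    · simp [chartN, Matrix.det_fin_two]; ring
    · ext i j
      fin_cases i <;> fin_cases j <;>
        simp [chartX, chartN, Matrix.mul_apply, Fin.sum_univ_two, hg] <;> ring
    · ext i j
      fin_cases i <;> fin_cases j <;>
        simp [chartX, chartN, Matrix.mul_apply, Fin.sum_univ_two, hδ, hg] <;> ring
    · intro i j
      fin_cases i <;> fin_cases j <;> simp [chartX]
      · rw [show g + (δ - x 1 * x 0) - φ (A 0 0) = δ - (φ (A 0 0) - g) - x 1 * x 0 by ring]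
        exact sub_mem (sub_mem (hm hδm) (hm a00)) (Ideal.mul_mem_right _ _ (hx 1))
      · exact sub_mem (hx 0) (hm a01)
      · exact sub_mem (Ideal.mul_mem_right _ _ (hx 1)) (hm a10)
      · rw [show g + x 1 * x 0 - φ (A 1 1) = x 1 * x 0 - (φ (A 1 1) - g) by ring]
        exact sub_mem (Ideal.mul_mem_right _ _ (hx 1)) (hm a11)
    · intro i j
      exact chartN_mem (hx 2) _ i j
    · intro c k
      cases c <;> fin_cases k <;> simp [wOf, wt, chartX, chartN, Fin.prod_univ_three]
      all_goals first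
        | exact zero_mem _
        | (rw [show x 2 * x 1 - x 1 * x 2 = 0 by ring]; exact zero_mem _)
        | (rw [show x 2 * x 1 * x 1 - x 1 ^ 2 * x 2 = 0 by ring]; exact zero_mem _)
        | exact a01
        | (rw [show g + x 1 * x 0 - φ (A 1 1) - x 0 * x 1 = -(φ (A 1 1) - g) by ring]
           exact neg_mem a11)
        | (rw [show φ (A 1 0) - x 1 * (δ - x 1 * x 0) - x 0 * x 1 ^ 2 = φ (A 1 0) - x 1 * δ by ring]
           exact sub_mem a10 (Ideal.mul_mem_left _ _ hδm))

end Chart

end Fermat.Agent.Engine.LocalType
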