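import Fermat.Agent.Engine.LocalType.Global
import Mathlib.RingTheory.MvPowerSeries.NoZeroDivisors

/-!
# Injectivity of the chart

`coordW` are the coordinates, `chartExp` their exponents in the chart.  The chart is injective on the
quotient by the type ideal.
-/

noncomputable section

namespace Fermat.Agent.Engine.LocalType

open IsLocalRing

variable {O : Type} [CommRing O] [IsLocalRing O] {T : Type} {g : ℕ}

variable (T g) in
/-- Indices of coordinates. -/
abbrev Coord : Type := (T × Bool × Fin 3) ⊕ Fin g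

variable (T g) in
/-- Chart variables. -/
abbrev ChartVar : Type := (T × Fin 3) ⊕ Fin g

variable (O T g) in
/-- The chart ring. -/
abbrev ChartRing : Type := MvPowerSeries (ChartVar T g) O

/-- The coordinates. -/
def coordW (P P' : T → Matrix (Fin 2) (Fin 2) O) (K : T → Kind) : Coord T g → LocRing O T g :=
  Sum.elim (fun p => wOf (K p.1) (conjC (P p.1) (P' p.1) (locX p.1))
      (conjC (P p.1) (P' p.1) (locMono p.1)) p.2.1 p.2.2)
    (fun l => MvPowerSeries.X (Sum.inr (Sum.inr l)))

/-- The exponents of the coordinates in the chart. -/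
def chartExp (K : T → Kind) : Coord T g → ChartVar T g →₀ ℕ :=
  Sum.elim (fun p => ∑ j, Finsupp.single (Sum.inl (p.1, j)) (wt (K p.1) p.2.1 p.2.2 j))
    (fun l => Finsupp.single (Sum.inr l) 1)

/-- The coordinates lie in the maximal ideal. -/
theorem coordW_mem (P P' : T → Matrix (Fin 2) (Fin 2) O) (K : T → Kind) (i : Coord T g) :
    coordW P P' K i ∈ maximalIdeal (LocRing O T g) := by
  rcases i with ⟨r, c, j⟩ | l
  · exact wOf_mem _ (conjC_mem fun i j => DefRing.X_mem_maximalIdeal _)
      (conjC_mem fun i j => DefRing.X_mem_maximalIdeal _) c j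
  · exact DefRing.X_mem_maximalIdeal _

/-- The chart exponents have degree at most three. -/
theorem degree_chartExp_le (K : T → Kind) (i : Coord T g) : (chartExp K i).degree ≤ 3 := by
  rcases i with ⟨r, c, j⟩ | l
  · simpa [chartExp, map_sum, Finsupp.degree_single, Fin.sum_univ_three] using
      wt_sum_le (K r) c j
  · simp [chartExp, Finsupp.degree_single]

variable [Finite T] {qv : T → ℕ} {Φ₀ : T → Matrix (Fin 2) (Fin 2) O} {τ : T → CompType}
  {P P' : T → Matrix (Fin 2) (Fin 2) O} {K : T → Kind}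
  (hP : ∀ r, P r * P' r = 1) (hK : ∀ r, (K r).type = τ r)
  (hgood : ∀ r, (K r).Good (qv r) (P r * Φ₀ r * P' r))

include hP hK hgood

/-- The coordinates generate the maximal ideal modulo the type ideal and `m`. -/
theorem maximalIdeal_le_coordW :
    maximalIdeal (LocRing O T g) ≤ (typeIdeal qv Φ₀ τ ⊔ (maximalIdeal O).map MvPowerSeries.C) ⊔
      Ideal.span (Set.range (coordW (g := g) P P' K)) := by
  set Q := (typeIdeal qv Φ₀ τ ⊔ (maximalIdeal O).map MvPowerSeries.C) ⊔
    Ideal.span (Set.range (coordW (g := g) P P' K)) with hQdef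
  have hC : ∀ o ∈ maximalIdeal O, (MvPowerSeries.C o : LocRing O T g) ∈ Q := fun o ho =>
    Ideal.mem_sup_left (Ideal.mem_sup_right (Ideal.mem_map_of_mem _ ho))
  have hJQ : typeIdeal qv Φ₀ τ ≤ RingHom.ker (Ideal.Quotient.mk Q) := by
    rw [Ideal.mk_ker]; exact le_sup_left.trans le_sup_left
  have hφ : ∀ o ∈ maximalIdeal O,
      ((Ideal.Quotient.mk Q).comp (MvPowerSeries.C : O →+* LocRing O T g)) o = 0 := fun o ho =>
    Ideal.Quotient.eq_zero_iff_mem.2 (hC o ho)
  refine maximalIdeal_le_of_coords hC P P' hP (fun r => ?_)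
    fun l => Ideal.mem_sup_right (Ideal.subset_span ⟨Sum.inr l, rfl⟩)
  refine eq_zero_of_wOf ((Ideal.Quotient.mk Q).comp (MvPowerSeries.C : O →+* LocRing O T g)) hφ
    (K r) (hgood r) (sat_conj _ hJQ r (hP r) (hK r)) fun c j => ?_
  rw [← map_wOf, Ideal.Quotient.eq_zero_iff_mem]
  exact Ideal.mem_sup_right (Ideal.subset_span ⟨Sum.inl (r, c, j), rfl⟩)

/-- Monomials in the coordinates with the same chart exponent are congruent. -/
theorem coordW_congr (e e' : Coord T g →₀ ℕ)
    (he : imgExp (chartExp K) e = imgExp (chartExp K) e') :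
    (e.prod fun i n => coordW P P' K i ^ n) - (e'.prod fun i n => coordW P P' K i ^ n) ∈
      typeIdeal qv Φ₀ τ ⊔ (maximalIdeal O).map MvPowerSeries.C := by
  classical
  let := Fintype.ofFinite T
  set I := typeIdeal (g := g) qv Φ₀ τ ⊔ (maximalIdeal O).map MvPowerSeries.C
  have hφ : ∀ o ∈ maximalIdeal O,
      ((Ideal.Quotient.mk I).comp (MvPowerSeries.C : O →+* LocRing O T g)) o = 0 := fun o ho =>
    Ideal.Quotient.eq_zero_iff_mem.2 (Ideal.mem_sup_right (Ideal.mem_map_of_mem _ ho))
  have hJI : typeIdeal qv Φ₀ τ ≤ RingHom.ker (Ideal.Quotient.mk I) := by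
    rw [Ideal.mk_ker]; exact le_sup_left
  rw [← Ideal.Quotient.eq, Finsupp.prod_fintype _ _ (fun i => pow_zero _),
    Finsupp.prod_fintype _ _ (fun i => pow_zero _), Fintype.prod_sum_type,
    Fintype.prod_sum_type, map_mul, map_mul]
  have hev : ∀ (f : Coord T g →₀ ℕ) (d : ChartVar T g),
      imgExp (chartExp K) f d = (∑ p, f (Sum.inl p) * chartExp (g := g) K (Sum.inl p) d) +
        ∑ l, f (Sum.inr l) * chartExp (g := g) K (Sum.inr l) d := by
    intro f d
    rw [imgExp, Finsupp.sum_fintype _ _ (fun i => zero_nsmul (chartExp K i)),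
      Finsupp.finsetSum_apply, Fintype.sum_sum_type]
    simp
  have hr : ∀ l, e (Sum.inr l) = e' (Sum.inr l) := by
    intro l
    have h := DFunLike.congr_fun he (Sum.inr l)
    rw [hev, hev] at h
    simpa [chartExp, Finsupp.single_apply] using h
  have hl : ∀ r j, (∑ c : Bool, ∑ k : Fin 3, e (Sum.inl (r, c, k)) * wt (K r) c k j) =
      ∑ c : Bool, ∑ k : Fin 3, e' (Sum.inl (r, c, k)) * wt (K r) c k j := by
    intro r j
    have h := DFunLike.congr_fun he (Sum.inl (r, j))
    rw [hev, hev] at h
    simpa [chartExp, Finsupp.single_apply, Fintype.sum_prod_type, Prod.mk.injEq, ite_and,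
      Finset.sum_ite_eq, Finset.sum_ite_eq'] using h
  congr 1
  · simp only [Fintype.prod_prod_type, map_prod, map_pow]
    refine Finset.prod_congr rfl fun r _ => ?_
    simp only [coordW, Sum.elim_inl, map_wOf]
    exact wOf_monomial_congr ((Ideal.Quotient.mk I).comp (MvPowerSeries.C : O →+* LocRing O T g))
      hφ (K r) (hgood r) (sat_conj _ hJI r (hP r) (hK r)) _ _ (hl r)
  · exact congrArg _ (Finset.prod_congr rfl fun l _ => by rw [hr l])

omit hP hK hgood

variable [IsNoetherianRing O]

omit [IsNoetherianRing O] [Finite T] in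
/-- Scalars of the maximal ideal vanish residually. -/
theorem map_residue_eq_zero {d : ChartRing O T g}
    (hd : d ∈ (maximalIdeal O).map (algebraMap O (ChartRing O T g))) :
    MvPowerSeries.map (residue O) d = 0 := by
  have hle : (maximalIdeal O).map (algebraMap O (ChartRing O T g)) ≤
      RingHom.ker (MvPowerSeries.map (σ := ChartVar T g) (residue O)) := by
    refine Ideal.map_le_iff_le_comap.2 fun o ho => ?_
    rw [Ideal.mem_comap, RingHom.mem_ker]
    show MvPowerSeries.map (residue O) (MvPowerSeries.C (algebraMap O O o)) = 0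
    simp [MvPowerSeries.map_C, (residue_eq_zero_iff o).2 ho]
  exact hle hd

omit [IsNoetherianRing O] [Finite T] in
/-- A monomial in the chart variables, residually. -/
theorem monomial_chart (r : T) (n : Fin 3 → ℕ) :
    MvPowerSeries.map (residue O)
      (∏ j, (MvPowerSeries.X (Sum.inl (r, j)) : ChartRing O T g) ^ n j) =
      MvPowerSeries.monomial (∑ j, Finsupp.single (Sum.inl (r, j)) (n j)) 1 := by
  simp only [MvPowerSeries.X_pow_eq, Fin.sum_univ_three, Fin.prod_univ_three,
    MvPowerSeries.monomial_mul_monomial, one_mul, MvPowerSeries.map_monomial, map_one]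

include hP hK hgood in
/-- Modulo `m` the chart is injective on the quotient by the type ideal. -/
theorem mem_of_chart_eq_zero (θ : LocRing O T g →ₐ[O] ChartRing O T g)
    (hloc : IsLocalHom (θ : LocRing O T g →+* ChartRing O T g))
    (hJ : typeIdeal qv Φ₀ τ ≤ RingHom.ker (θ : LocRing O T g →+* ChartRing O T g))
    (hval : ∀ r c k, θ (coordW P P' K (Sum.inl (r, c, k))) -
      ∏ j, (MvPowerSeries.X (Sum.inl (r, j)) : ChartRing O T g) ^ wt (K r) c k j ∈
        (maximalIdeal O).map (algebraMap O (ChartRing O T g)))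
    (hy : ∀ l, θ (coordW P P' K (Sum.inr l)) = MvPowerSeries.X (Sum.inr l))
    {x : LocRing O T g} (hx : θ x = 0) :
    x ∈ typeIdeal qv Φ₀ τ ⊔ (maximalIdeal O).map MvPowerSeries.C := by
  let ψ : LocRing O T g →+* MvPowerSeries (ChartVar T g) (ResidueField O) :=
    (MvPowerSeries.map (residue O)).comp (θ : LocRing O T g →+* ChartRing O T g)
  have hψ : ∀ y, ψ y = MvPowerSeries.map (residue O) (θ y) := fun y => rfl
  have hψI : typeIdeal qv Φ₀ τ ⊔ (maximalIdeal O).map MvPowerSeries.C ≤ RingHom.ker ψ := by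
    refine sup_le (fun y hy => ?_) (Ideal.map_le_iff_le_comap.2 fun o ho => ?_)
    · rw [RingHom.mem_ker, hψ, show θ y = 0 from hJ hy, map_zero]
    · rw [Ideal.mem_comap, RingHom.mem_ker, hψ,
        show θ (MvPowerSeries.C o) = algebraMap O (ChartRing O T g) o from θ.commutes o]
      exact map_residue_eq_zero (Ideal.mem_map_of_mem _ ho)
  refine mem_of_map_eq_zero (O := O) maximalIdeal_eq_bot ψ ?_ (residue O) ?_ ?_
    (fun y hy => hψI hy) (coordW_mem P P' K) (maximalIdeal_le_coordW hP hK hgood) ?_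
    (chartExp K) (degree_chartExp_le K) ?_ (coordW_congr hP hK hgood) (by rw [hψ, hx, map_zero])
  · intro y hy
    rw [DefRing.mem_maximalIdeal_iff_constantCoeff, hψ]
    have h1 : θ y ∈ maximalIdeal (ChartRing O T g) := fun hu => hy (hloc.map_nonunit y hu)
    rw [DefRing.mem_maximalIdeal_iff_constantCoeff] at h1
    rw [MvPowerSeries.constantCoeff_map, (residue_eq_zero_iff _).2 h1]
    exact zero_mem _
  · intro o
    rw [hψ, θ.commutes]
    exact MvPowerSeries.map_C _ _
  · exact fun o ho => Ideal.mem_sup_right (Ideal.mem_map_of_mem _ ((residue_eq_zero_iff o).1 ho))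
  · exact fun y => ⟨MvPowerSeries.constantCoeff y, by
      rw [DefRing.mem_maximalIdeal_iff_constantCoeff, map_sub,
        show algebraMap O (LocRing O T g) (MvPowerSeries.constantCoeff y) =
          MvPowerSeries.C (MvPowerSeries.constantCoeff y) from rfl,
        MvPowerSeries.constantCoeff_C, sub_self]
      exact zero_mem _⟩
  · rintro (⟨r, c, j⟩ | l)
    · have h := map_residue_eq_zero (hval r c j)
      rw [map_sub, sub_eq_zero, monomial_chart] at h
      exact h
    · rw [hψ, hy, MvPowerSeries.map_X]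
      rfl

include hP hK hgood in
/-- **The type ideal is the kernel of its chart.** -/
theorem isPrime_of_kinds [IsDomain O] [IsAdicComplete (maximalIdeal O) O] {ϖ : O} (hϖ0 : ϖ ≠ 0)
    (hmax : maximalIdeal O = Ideal.span {ϖ}) : (typeIdeal (g := g) qv Φ₀ τ).IsPrime := by
  have : IsAdicComplete (maximalIdeal (ChartRing O T g)) (ChartRing O T g) :=
    DefRing.isAdicComplete_mvPowerSeries
  have : IsLocalHom (algebraMap O (ChartRing O T g)) := ⟨fun a ha => by
    simpa [MvPowerSeries.algebraMap_apply, MvPowerSeries.isUnit_iff_constantCoeff] using ha⟩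
  have : IsDomain (ChartRing O T g) := NoZeroDivisors.to_isDomain _
  obtain ⟨θ, hloc, hJ, hval, hy, -⟩ := exists_chart_point (g := g) (D := ChartRing O T g)
    qv Φ₀ τ P P' K hP hK hgood (fun r j => MvPowerSeries.X (Sum.inl (r, j)))
    (fun r j => DefRing.X_mem_maximalIdeal _)
    (fun l => MvPowerSeries.X (Sum.inr l)) (fun l => DefRing.X_mem_maximalIdeal _)
  set J := typeIdeal (g := g) qv Φ₀ τ
  have key : ∀ x, θ x = 0 → x ∈ J ⊔ (maximalIdeal O).map MvPowerSeries.C := fun x hx =>
    mem_of_chart_eq_zero hP hK hgood θ hloc hJ hval hy hx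
  have hker : RingHom.ker (θ : LocRing O T g →+* ChartRing O T g) = J := by
    refine le_antisymm (fun x hx => ?_) hJ
    rw [← Ideal.Quotient.eq_zero_iff_mem]
    have : Nontrivial (LocRing O T g ⧸ J) := Ideal.Quotient.nontrivial_iff.2 fun h =>
      (RingHom.ker_ne_top (θ : LocRing O T g →+* ChartRing O T g)) (top_le_iff.1 (h ▸ hJ))
    have : IsLocalRing (LocRing O T g ⧸ J) := .of_surjective' _ Ideal.Quotient.mk_surjective
    have : IsNoetherianRing (LocRing O T g ⧸ J) :=
      isNoetherianRing_of_surjective _ _ (Ideal.Quotient.mk J) Ideal.Quotient.mk_surjective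
    have : IsLocalHom (Ideal.Quotient.mk J) :=
      IsLocalHom.of_surjective _ Ideal.Quotient.mk_surjective
    rw [← Ideal.mem_bot, ← Ideal.iInf_pow_eq_bot_of_isLocalRing
      (maximalIdeal (LocRing O T g ⧸ J)) (maximalIdeal.isMaximal _).ne_top, Ideal.mem_iInf]
    have hπ : Ideal.Quotient.mk J (MvPowerSeries.C ϖ) ∈ maximalIdeal (LocRing O T g ⧸ J) := by
      intro hu
      have h1 := isUnit_of_map_unit (Ideal.Quotient.mk J) _ hu
      rw [MvPowerSeries.isUnit_iff_constantCoeff, MvPowerSeries.constantCoeff_C] at h1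
      exact (show ϖ ∈ maximalIdeal O by rw [hmax]; exact Ideal.mem_span_singleton_self ϖ) h1
    suffices h : ∀ m, ∃ y, θ y = 0 ∧ Ideal.Quotient.mk J x =
        Ideal.Quotient.mk J (MvPowerSeries.C ϖ) ^ m * Ideal.Quotient.mk J y by
      intro m
      obtain ⟨y, -, hy'⟩ := h m
      rw [hy']
      exact Ideal.mul_mem_right _ _ (Ideal.pow_mem_pow hπ m)
    intro m
    induction m with
    | zero => exact ⟨x, hx, by simp⟩
    | succ m ih =>
      obtain ⟨y, hy0, hy'⟩ := ih
      have hyI := key y hy0
      rw [hmax, Ideal.map_span, Set.image_singleton] at hyI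
      obtain ⟨a, ha, b, hb, hab⟩ := Submodule.mem_sup.1 hyI
      obtain ⟨z, rfl⟩ := Ideal.mem_span_singleton'.1 hb
      refine ⟨z, ?_, ?_⟩
      · have h1 : θ (z * MvPowerSeries.C ϖ) = 0 := by
          have h2 := congrArg θ hab
          rwa [map_add, show θ a = 0 from hJ ha, zero_add, hy0] at h2
        rw [map_mul] at h1
        refine (mul_eq_zero.1 h1).resolve_right fun h0 => hϖ0 ?_
        rw [show θ (MvPowerSeries.C ϖ) = algebraMap O (ChartRing O T g) ϖ from θ.commutes ϖ] at h0
        simpa [MvPowerSeries.algebraMap_apply] using congrArg MvPowerSeries.constantCoeff h0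
      · rw [hy', ← hab, map_add, Ideal.Quotient.eq_zero_iff_mem.2 ha, map_mul, pow_succ]
        ring
  rw [← hker]
  exact RingHom.ker_isPrime _

end Fermat.Agent.Engine.LocalType
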